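/-
TW programme, WP3 (3a): the abstract Selmer comparison step.

Pure linear algebra: given "global" spaces `V`, `W`, families of "local" spaces `X v`, `Y v`
with localisation maps `a v : V → X v`, `b v : W → Y v`, local pairings `B v : X v × Y v → k`
and a reciprocity law `∑ v, B v (a v x) (b v y) = 0` for `x ∈ A`, `y ∈ A'`, the Selmer groups
attached to local conditions `L ≤ L'` satisfy

  dim Sel(L') + dim Sel'(L^⊥) + ∑ dim L v ≤ dim Sel(L) + dim Sel'(L'^⊥) + ∑ dim L' v.

No perfectness of the local pairings is needed.  The second half of the file specialises this to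
the Prelude's `groupCohomology.selmerAdm` / `groupCohomology.selmerComparisonStep`.
-/
import Mathlib
import Fermat.Prelude.Def_GroupCohomology_SelmerAdm

set_option autoImplicit false

open Module

namespace Fermat.Agent.TW.Recip.Comparison94

section LinAlg

variable {k : Type*} [Field k] {ι : Type*} [Fintype ι]
variable {V W : Type*} [AddCommGroup V] [Module k V] [AddCommGroup W] [Module k W]
variable {X Y : ι → Type*} [∀ v, AddCommGroup (X v)] [∀ v, Module k (X v)]
  [∀ v, AddCommGroup (Y v)] [∀ v, Module k (Y v)]

/-- Abstract Selmer group: elements of `A` whose localisations satisfy the local conditions. -/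
def sel (a : ∀ v, V →ₗ[k] X v) (A : Submodule k V) (L : ∀ v, Submodule k (X v)) :
    Submodule k V :=
  (⨅ v, (L v).comap (a v)) ⊓ A

omit [Fintype ι] in
lemma mem_sel_iff (a : ∀ v, V →ₗ[k] X v) (A : Submodule k V) (L : ∀ v, Submodule k (X v))
    (x : V) : x ∈ sel a A L ↔ x ∈ A ∧ ∀ v, a v x ∈ L v := by
  simp only [sel, Submodule.mem_inf, Submodule.mem_iInf, Submodule.mem_comap]
  tauto

omit [Fintype ι] in
lemma sel_mono (a : ∀ v, V →ₗ[k] X v) (A : Submodule k V) {L L' : ∀ v, Submodule k (X v)}
    (h : ∀ v, L v ≤ L' v) : sel a A L ≤ sel a A L' := by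
  intro x hx
  rw [mem_sel_iff] at hx ⊢
  exact ⟨hx.1, fun v => h v (hx.2 v)⟩

/-- Orthogonal complement of a local condition under a local pairing. -/
def orth (B : ∀ v, X v →ₗ[k] Y v →ₗ[k] k) (L : ∀ v, Submodule k (X v)) (v : ι) :
    Submodule k (Y v) :=
  (L v).dualAnnihilator.comap (B v).flip

omit [Fintype ι] in
lemma mem_orth_iff (B : ∀ v, X v →ₗ[k] Y v →ₗ[k] k) (L : ∀ v, Submodule k (X v)) (v : ι)
    (y : Y v) : y ∈ orth B L v ↔ ∀ x ∈ L v, B v x y = 0 := by
  simp only [orth, Submodule.mem_comap, Submodule.mem_dualAnnihilator]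
  exact forall₂_congr fun x _ => by rw [LinearMap.flip_apply]

omit [Fintype ι] in
lemma orth_anti (B : ∀ v, X v →ₗ[k] Y v →ₗ[k] k) {L L' : ∀ v, Submodule k (X v)}
    (h : ∀ v, L v ≤ L' v) (v : ι) : orth B L' v ≤ orth B L v := by
  intro y hy
  rw [mem_orth_iff] at hy ⊢
  exact fun x hx => hy x (h v hx)

variable (a : ∀ v, V →ₗ[k] X v) (b : ∀ v, W →ₗ[k] Y v) (B : ∀ v, X v →ₗ[k] Y v →ₗ[k] k)
variable (A : Submodule k V) (A' : Submodule k W)
variable (L L' : ∀ v, Submodule k (X v))

/-- The local quotient `L' v / L v`. -/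
abbrev Quo (v : ι) : Type _ := (L' v) ⧸ ((L v).comap (L' v).subtype)

/-- The map `Sel(L') → ∏ L' v / L v`. -/
noncomputable def alpha : sel a A L' →ₗ[k] (∀ v, Quo L L' v) :=
  LinearMap.pi fun v =>
    (Submodule.mkQ ((L v).comap (L' v).subtype)).comp
      (LinearMap.codRestrict (L' v) ((a v).comp (sel a A L').subtype)
        (fun x => ((mem_sel_iff a A L' x.1).1 x.2).2 v))

omit [Fintype ι] in
lemma alpha_apply (x : sel a A L') (v : ι) :
    alpha a A L L' x v =
      Submodule.Quotient.mk (p := (L v).comap (L' v).subtype)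
        ⟨a v x.1, ((mem_sel_iff a A L' x.1).1 x.2).2 v⟩ := rfl

omit [Fintype ι] in
lemma ker_alpha :
    LinearMap.ker (alpha a A L L') = (sel a A L).comap (sel a A L').subtype := by
  ext x
  simp only [LinearMap.mem_ker, Submodule.mem_comap, Submodule.subtype_apply, mem_sel_iff]
  constructor
  · intro hx
    refine ⟨((mem_sel_iff a A L' x.1).1 x.2).1, fun v => ?_⟩
    have := congrFun hx v
    rw [alpha_apply, Pi.zero_apply, Submodule.Quotient.mk_eq_zero] at this
    simpa using this
  · intro hx
    funext v
    rw [alpha_apply, Pi.zero_apply, Submodule.Quotient.mk_eq_zero]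
    simpa using hx.2 v

/-- The pairing of `L' v / L v` with `Sel'(L^⊥)` at the place `v`. -/
noncomputable def psi (v : ι) : Quo L L' v →ₗ[k] (sel b A' (orth B L)) →ₗ[k] k :=
  Submodule.liftQ ((L v).comap (L' v).subtype)
    ((B v).compl₁₂ (L' v).subtype ((b v).comp (sel b A' (orth B L)).subtype))
    (by
      intro x hx
      rw [LinearMap.mem_ker]
      ext y
      simp only [LinearMap.compl₁₂_apply, Submodule.subtype_apply, LinearMap.comp_apply,
        LinearMap.zero_apply]
      have hy := ((mem_sel_iff b A' (orth B L) y.1).1 y.2).2 v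
      rw [mem_orth_iff] at hy
      exact hy _ (by simpa using hx))

omit [Fintype ι] in
lemma psi_mk (v : ι) (x : L' v) (y : sel b A' (orth B L)) :
    psi b B A' L L' v (Submodule.Quotient.mk x) y = B v x.1 (b v y.1) := rfl

/-- The map `Sel'(L^⊥) → (∏ L' v / L v)^*`. -/
noncomputable def beta : sel b A' (orth B L) →ₗ[k] Module.Dual k (∀ v, Quo L L' v) :=
  (∑ v, (psi b B A' L L' v).comp (LinearMap.proj v)).flip

lemma beta_apply (y : sel b A' (orth B L)) (ξ : ∀ v, Quo L L' v) :
    beta b B A' L L' y ξ = ∑ v, psi b B A' L L' v (ξ v) y := by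
  simp [beta, LinearMap.flip_apply, LinearMap.sum_apply]

lemma ker_beta :
    LinearMap.ker (beta b B A' L L') =
      (sel b A' (orth B L')).comap (sel b A' (orth B L)).subtype := by
  classical
  ext y
  simp only [LinearMap.mem_ker, Submodule.mem_comap, Submodule.subtype_apply, mem_sel_iff]
  constructor
  · intro hy
    refine ⟨((mem_sel_iff b A' (orth B L) y.1).1 y.2).1, fun v => ?_⟩
    rw [mem_orth_iff]
    intro x hx
    have := LinearMap.congr_fun hy
      (Pi.single v (Submodule.Quotient.mk (p := (L v).comap (L' v).subtype) ⟨x, hx⟩))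
    rw [beta_apply, LinearMap.zero_apply, Finset.sum_eq_single v] at this
    · simpa [psi_mk] using this
    · intro w _ hw
      rw [Pi.single_eq_of_ne hw, map_zero, LinearMap.zero_apply]
    · intro hv
      exact absurd (Finset.mem_univ v) hv
  · intro hy
    refine LinearMap.ext fun ξ => ?_
    rw [beta_apply, LinearMap.zero_apply]
    refine Finset.sum_eq_zero fun v _ => ?_
    obtain ⟨x, hx⟩ := Submodule.Quotient.mk_surjective _ (ξ v)
    rw [← hx, psi_mk]
    have := hy.2 v
    rw [mem_orth_iff] at this
    exact this _ x.2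

lemma beta_alpha (hrec : ∀ x ∈ A, ∀ y ∈ A', ∑ v, B v (a v x) (b v y) = 0)
    (y : sel b A' (orth B L)) (x : sel a A L') :
    beta b B A' L L' y (alpha a A L L' x) = 0 := by
  rw [beta_apply]
  simp only [alpha_apply, psi_mk]
  exact hrec x.1 ((mem_sel_iff a A L' x.1).1 x.2).1 y.1
    ((mem_sel_iff b A' (orth B L) y.1).1 y.2).1

lemma range_beta_le (hrec : ∀ x ∈ A, ∀ y ∈ A', ∑ v, B v (a v x) (b v y) = 0) :
    LinearMap.range (beta b B A' L L') ≤
      (LinearMap.range (alpha a A L L')).dualAnnihilator := by
  rintro _ ⟨y, rfl⟩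
  rw [Submodule.mem_dualAnnihilator]
  rintro _ ⟨x, rfl⟩
  exact beta_alpha a b B A A' L L' hrec y x

/-- **Abstract Selmer comparison step.**  No perfectness of the local pairings is needed. -/
theorem comparison (h : ∀ v, L v ≤ L' v) [∀ v, FiniteDimensional k (L' v)]
    [FiniteDimensional k (sel a A L')] [FiniteDimensional k (sel b A' (orth B L))]
    (hrec : ∀ x ∈ A, ∀ y ∈ A', ∑ v, B v (a v x) (b v y) = 0) :
    finrank k (sel a A L') + finrank k (sel b A' (orth B L)) + ∑ v, finrank k (L v)
      ≤ finrank k (sel a A L) + finrank k (sel b A' (orth B L')) + ∑ v, finrank k (L' v) := by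
  -- rank-nullity for alpha
  have h1 := LinearMap.finrank_range_add_finrank_ker (alpha a A L L')
  rw [ker_alpha a A L L',
    (Submodule.comapSubtypeEquivOfLe (sel_mono a A h)).finrank_eq] at h1
  -- rank-nullity for beta
  have h2 := LinearMap.finrank_range_add_finrank_ker (beta b B A' L L')
  rw [ker_beta b B A' L L',
    (Submodule.comapSubtypeEquivOfLe (sel_mono b A' (orth_anti B h))).finrank_eq] at h2
  -- orthogonality
  have h3 : finrank k (LinearMap.range (beta b B A' L L')) ≤
      finrank k (LinearMap.range (alpha a A L L')).dualAnnihilator :=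
    Submodule.finrank_mono (range_beta_le a b B A A' L L' hrec)
  have h4 := Subspace.finrank_add_finrank_dualAnnihilator_eq
    (LinearMap.range (alpha a A L L'))
  -- dimension of the product of local quotients
  have h5 : finrank k (∀ v, Quo L L' v) + ∑ v, finrank k (L v) = ∑ v, finrank k (L' v) := by
    rw [Module.finrank_pi_fintype, ← Finset.sum_add_distrib]
    refine Finset.sum_congr rfl fun v _ => ?_
    have := Submodule.finrank_quotient_add_finrank ((L v).comap (L' v).subtype)
    rw [(Submodule.comapSubtypeEquivOfLe (h v)).finrank_eq] at this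
    exact this
  omega

end LinAlg

section Prelude

open groupCohomology CategoryTheory

universe u

variable {k : Type u} [Field k]
variable {Γ : Type u} [Group Γ]
variable {ι : Type u} [Fintype ι] {Γv : ι → Type u} [∀ v, Group (Γv v)]
variable (loc : ∀ v, Γv v →* Γ) (M M' : Rep k Γ)
variable (pairing : ∀ v, H1 (Rep.res (loc v) M) →ₗ[k] H1 (Rep.res (loc v) M') →ₗ[k] k)

omit [Fintype ι] in
lemma selmerAdm_eq_sel (L : ∀ v, Submodule k (H1 (Rep.res (loc v) M)))
    (adm : Submodule k (H1 M)) :
    selmerAdm loc M L adm = sel (fun v => (locRes loc M v).hom) adm L := rfl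

omit [Fintype ι] in
lemma dualConditions_eq_orth (L : ∀ v, Submodule k (H1 (Rep.res (loc v) M))) :
    dualConditions loc M M' pairing L = orth pairing L := rfl

/-- **Selmer comparison step with admissibility conditions** from a reciprocity law. -/
theorem selmerAdm_comparison (L L' : ∀ v, Submodule k (H1 (Rep.res (loc v) M)))
    (adm : Submodule k (H1 M)) (adm' : Submodule k (H1 M'))
    (h : ∀ v, L v ≤ L' v) [∀ v, FiniteDimensional k (L' v)]
    [FiniteDimensional k (selmerAdm loc M L' adm)]
    [FiniteDimensional k (selmerAdm loc M' (dualConditions loc M M' pairing L) adm')]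
    (hrec : ∀ x ∈ adm, ∀ y ∈ adm',
      ∑ v, pairing v ((locRes loc M v).hom x) ((locRes loc M' v).hom y) = 0) :
    finrank k (selmerAdm loc M L' adm)
        + finrank k (selmerAdm loc M' (dualConditions loc M M' pairing L) adm')
        + ∑ v, finrank k (L v)
      ≤ finrank k (selmerAdm loc M L adm)
        + finrank k (selmerAdm loc M' (dualConditions loc M M' pairing L') adm')
        + ∑ v, finrank k (L' v) := by
  have i1 : FiniteDimensional k (sel (fun v => (locRes loc M v).hom) adm L') :=
    ‹FiniteDimensional k (selmerAdm loc M L' adm)›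
  have i2 : FiniteDimensional k
      (sel (fun v => (locRes loc M' v).hom) adm' (orth pairing L)) :=
    ‹FiniteDimensional k (selmerAdm loc M' (dualConditions loc M M' pairing L) adm')›
  exact comparison (fun v => (locRes loc M v).hom) (fun v => (locRes loc M' v).hom) pairing
    adm adm' L L' h hrec

/-- The Prelude's `selmerComparisonStep` from a reciprocity law (and finiteness). -/
theorem selmerComparisonStep_of_reciprocity (L L' : ∀ v, Submodule k (H1 (Rep.res (loc v) M)))
    [∀ v, FiniteDimensional k (L' v)]
    [FiniteDimensional k (selmer loc M L')]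
    [FiniteDimensional k (selmer loc M' (dualConditions loc M M' pairing L))]
    (hrec : ∀ (x : H1 M) (y : H1 M'),
      ∑ v, pairing v ((locRes loc M v).hom x) ((locRes loc M' v).hom y) = 0) :
    selmerComparisonStep loc M M' pairing L L' := by
  intro h
  have i1 : FiniteDimensional k (selmerAdm loc M L' ⊤) := by
    rw [selmerAdm_top]; infer_instance
  have i2 : FiniteDimensional k
      (selmerAdm loc M' (dualConditions loc M M' pairing L) ⊤) := by
    rw [selmerAdm_top]; infer_instance
  have := selmerAdm_comparison loc M M' pairing L L' ⊤ ⊤ h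
    (fun x _ y _ => hrec x y)
  rw [selmerAdm_top, selmerAdm_top, selmerAdm_top, selmerAdm_top] at this
  exact this

omit [Fintype ι] in
lemma dualConditions_bot :
    dualConditions loc M M' pairing (fun _ => ⊥) = fun _ => ⊤ := by
  funext v
  exact orthogonal_bot (pairing v)

/-- Comparison with the zero local conditions: the form `GW(L) ≤ GW(0)` used to reduce the
Greenberg–Wiles inequality to its base case. -/
theorem selmerAdm_le_of_reciprocity (L : ∀ v, Submodule k (H1 (Rep.res (loc v) M)))
    (adm : Submodule k (H1 M)) (adm' : Submodule k (H1 M'))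
    [∀ v, FiniteDimensional k (L v)]
    [FiniteDimensional k (selmerAdm loc M L adm)]
    [FiniteDimensional k (selmerAdm loc M' (fun _ => ⊤) adm')]
    (hrec : ∀ x ∈ adm, ∀ y ∈ adm',
      ∑ v, pairing v ((locRes loc M v).hom x) ((locRes loc M' v).hom y) = 0) :
    finrank k (selmerAdm loc M L adm) + finrank k (selmerAdm loc M' (fun _ => ⊤) adm')
      ≤ finrank k (selmerAdm loc M (fun _ => ⊥) adm)
        + finrank k (selmerAdm loc M' (dualConditions loc M M' pairing L) adm')
        + ∑ v, finrank k (L v) := by
  have i2 : FiniteDimensional k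
      (selmerAdm loc M' (dualConditions loc M M' pairing (fun _ => ⊥)) adm') := by
    rw [dualConditions_bot]; infer_instance
  have := selmerAdm_comparison loc M M' pairing (fun _ => ⊥) L adm adm' (fun v => bot_le) hrec
  rw [dualConditions_bot] at this
  simpa using this

end Prelude

end Fermat.Agent.TW.Recip.Comparison94
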