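/-
TW programme, WP3 (3b), file 1: the cup product `H¹ × H¹ → H²` on LEVEL cohomology, in the
framework of `PT/PRO` (`HyperLevel25` / `Resolved4`: unbundled `Representation k G Y`, level bases,
`Hlev1`, `Hlev2`, classes `cl1`, `cl2`).

For discrete `G`-modules `A`, `A'`, `T` and an equivariant bilinear map `β : A × A' → T`:

* `cupFun β x y (g, h) = β (x g) (g • y h)` on raw cochains; Leibniz rules (from `ExtPairing4`);
* `cup : Hlev1(A) →ₗ Hlev1(A') →ₗ Hlev2(T)` with `cup_cl1 : cup [x] [y] = [cupFun β x y]`;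
* naturality for a change of group `f : G' →* G` (`PairingRes1.resH1/resH2`): `resH2_cup`;
* naturality in the coefficient module `T` (`Resolved4.lvlHom`): `mapH2_cup`.
-/
import Mathlib
import Fermat.Agent.PT.PRO.ExtPairing4
import Fermat.Agent.PT.PRO.PairingRes1

set_option autoImplicit false

namespace Fermat.Agent.TW.Recip.CupLevel94

open Function Fermat.Agent.PT.PRO.HyperLevel25 Fermat.Agent.PT.PRO.HyperRes25
  Fermat.Agent.PT.PRO.Resolved4 Fermat.Agent.PT.PRO.ExtPairing4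
  Fermat.Agent.PT.PRO.PairingRes1

/-! ## Raw cochains -/

section Raw

variable {k G : Type*} [CommRing k] [Group G]
variable {A A' T : Type*} [AddCommGroup A] [Module k A] [AddCommGroup A'] [Module k A']
  [AddCommGroup T] [Module k T]
variable {ρA : Representation k G A} (ρA' : Representation k G A') {ρT : Representation k G T}
variable (β : A →ₗ[k] A' →ₗ[k] T)

/-- The cup product of two inhomogeneous `1`-cochains: `(x ∪ y)(g, h) = β (x g) (g • y h)`. -/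
def cupFun (x : G → A) (y : G → A') : G × G → T :=
  fun q => β (x q.1) (ρA' q.1 (y q.2))

@[simp] lemma cupFun_apply (x : G → A) (y : G → A') (g h : G) :
    cupFun ρA' β x y (g, h) = β (x g) (ρA' g (y h)) := rfl

lemma cupFun_add_left (x x' : G → A) (y : G → A') :
    cupFun ρA' β (x + x') y = cupFun ρA' β x y + cupFun ρA' β x' y := by
  funext ⟨g, h⟩
  simp only [cupFun_apply, Pi.add_apply, map_add, LinearMap.add_apply]

lemma cupFun_add_right (x : G → A) (y y' : G → A') :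
    cupFun ρA' β x (y + y') = cupFun ρA' β x y + cupFun ρA' β x y' := by
  funext ⟨g, h⟩
  simp only [cupFun_apply, Pi.add_apply, map_add]

lemma cupFun_smul_left (r : k) (x : G → A) (y : G → A') :
    cupFun ρA' β (r • x) y = r • cupFun ρA' β x y := by
  funext ⟨g, h⟩
  simp only [cupFun_apply, Pi.smul_apply, map_smul, LinearMap.smul_apply]

lemma cupFun_smul_right (r : k) (x : G → A) (y : G → A') :
    cupFun ρA' β x (r • y) = r • cupFun ρA' β x y := by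
  funext ⟨g, h⟩
  simp only [cupFun_apply, Pi.smul_apply, map_smul]

variable {ρA'} (hβ : ∀ g a a', β (ρA g a) (ρA' g a') = ρT g (β a a'))

include hβ

/-- The cup product of two `1`-cocycles is a `2`-cocycle. -/
lemma dTwo_cupFun {x : G → A} {y : G → A'} (hx : dOne ρA x = 0) (hy : dOne ρA' y = 0) :
    dTwo ρT (cupFun ρA' β x y) = 0 := by
  funext ⟨g, h, j⟩
  have := leib11 β hβ x y g h j
  have e : (fun q : G × G => β (x q.1) (ρA' q.1 (y q.2))) = cupFun ρA' β x y := rfl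
  rw [e, hx, hy] at this
  simpa using this

/-- `(d a) ∪ y = d (g ↦ β a (y g))` for a cocycle `y`. -/
lemma cupFun_dZero_left (a : A) {y : G → A'} (hy : dOne ρA' y = 0) :
    cupFun ρA' β (dZero ρA a) y = dOne ρT (fun g => β a (y g)) := by
  funext ⟨g, h⟩
  have := leib01 β hβ a y g h
  rw [hy] at this
  simpa using this.symm

/-- `x ∪ (d a') = d (-(g ↦ β (x g) (g • a')))` for a cocycle `x`. -/
lemma cupFun_dZero_right {x : G → A} (hx : dOne ρA x = 0) (a' : A') :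
    cupFun ρA' β x (dZero ρA' a') = dOne ρT (-(fun g => β (x g) (ρA' g a'))) := by
  funext ⟨g, h⟩
  have := leib10 β hβ x a' g h
  rw [hx] at this
  rw [map_neg, Pi.neg_apply, this]
  simp

end Raw

/-! ## The cup product on level cohomology -/

section Cup

variable {k G : Type*} [CommRing k] [Group G] {𝒰 : Set (Subgroup G)}
variable {A A' T : Type*} [AddCommGroup A] [Module k A] [AddCommGroup A'] [Module k A']
  [AddCommGroup T] [Module k T]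
variable {ρA : Representation k G A} {ρA' : Representation k G A'} {ρT : Representation k G T}
variable (h𝒰 : IsLevelBasis 𝒰) (hA : IsDiscrete 𝒰 ρA) (hA' : IsDiscrete 𝒰 ρA')
  (hT : IsDiscrete 𝒰 ρT)
variable (β : A →ₗ[k] A' →ₗ[k] T) (hβ : ∀ g a a', β (ρA g a) (ρA' g a') = ρT g (β a a'))

include h𝒰 hA' in
lemma isLevel₂_cupFun {x : G → A} {y : G → A'} (hx : IsLevel₁ 𝒰 x) (hy : IsLevel₁ 𝒰 y) :
    IsLevel₂ 𝒰 (cupFun ρA' β x y) :=
  isLevel₂_cup11 h𝒰 hA' (fun a a' => β a a') hx hy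

lemma cl2_eq_add {f f1 f2 : G × G → T} (h : f = f1 + f2)
    (hl : IsLevel₂ 𝒰 f) (hc : dTwo ρT f = 0) (hl1 : IsLevel₂ 𝒰 f1) (hc1 : dTwo ρT f1 = 0)
    (hl2 : IsLevel₂ 𝒰 f2) (hc2 : dTwo ρT f2 = 0) :
    cl2 h𝒰 ρT hT f hl hc = cl2 h𝒰 ρT hT f1 hl1 hc1 + cl2 h𝒰 ρT hT f2 hl2 hc2 := by
  subst h
  exact cl2_add hl1 hc1 hl2 hc2 hl hc

lemma cl2_eq_smul (r : k) {f f1 : G × G → T} (h : f = r • f1)
    (hl : IsLevel₂ 𝒰 f) (hc : dTwo ρT f = 0) (hl1 : IsLevel₂ 𝒰 f1) (hc1 : dTwo ρT f1 = 0) :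
    cl2 h𝒰 ρT hT f hl hc = r • cl2 h𝒰 ρT hT f1 hl1 hc1 := by
  subst h
  exact cl2_smul r hl1 hc1 hl hc

/-- The underlying function of a level `1`-cocycle. -/
abbrev fn {Y : Type*} [AddCommGroup Y] [Module k Y] {ρ : Representation k G Y}
    {hρ : IsDiscrete 𝒰 ρ} (z : (lvl h𝒰 ρ hρ).Z1) : G → Y := ((z : lev₁ k h𝒰 Y) : G → Y)

lemma fn_level {Y : Type*} [AddCommGroup Y] [Module k Y] {ρ : Representation k G Y}
    {hρ : IsDiscrete 𝒰 ρ} (z : (lvl h𝒰 ρ hρ).Z1) : IsLevel₁ 𝒰 (fn h𝒰 z) := z.1.2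

lemma fn_cocycle {Y : Type*} [AddCommGroup Y] [Module k Y] {ρ : Representation k G Y}
    {hρ : IsDiscrete 𝒰 ρ} (z : (lvl h𝒰 ρ hρ).Z1) : dOne ρ (fn h𝒰 z) = 0 :=
  (mem_lvl_Z1_iff h𝒰 ρ hρ z.1).1 z.2

/-- The cup product of two level cocycles, as a class. -/
def cupZ (z : (lvl h𝒰 ρA hA).Z1) (z' : (lvl h𝒰 ρA' hA').Z1) : Hlev2 h𝒰 ρT hT :=
  cl2 h𝒰 ρT hT (cupFun ρA' β (fn h𝒰 z) (fn h𝒰 z'))
    (isLevel₂_cupFun h𝒰 hA' β (fn_level h𝒰 z) (fn_level h𝒰 z'))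
    (dTwo_cupFun β hβ (fn_cocycle h𝒰 z) (fn_cocycle h𝒰 z'))

/-- The cup product on cocycles as a bilinear map. -/
def cupZlin : (lvl h𝒰 ρA hA).Z1 →ₗ[k] (lvl h𝒰 ρA' hA').Z1 →ₗ[k] Hlev2 h𝒰 ρT hT :=
  LinearMap.mk₂ k (cupZ h𝒰 hA hA' hT β hβ)
    (fun _ _ _ => cl2_eq_add h𝒰 hT (cupFun_add_left ρA' β _ _ _) _ _ _ _ _ _)
    (fun r _ _ => cl2_eq_smul h𝒰 hT r (cupFun_smul_left ρA' β r _ _) _ _ _ _)
    (fun _ _ _ => cl2_eq_add h𝒰 hT (cupFun_add_right ρA' β _ _ _) _ _ _ _ _ _)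
    (fun r _ _ => cl2_eq_smul h𝒰 hT r (cupFun_smul_right ρA' β r _ _) _ _ _ _)

lemma cupZlin_apply (z : (lvl h𝒰 ρA hA).Z1) (z' : (lvl h𝒰 ρA' hA').Z1) :
    cupZlin h𝒰 hA hA' hT β hβ z z' = cupZ h𝒰 hA hA' hT β hβ z z' := rfl

lemma cupZ_eq_zero_of_left (z : (lvl h𝒰 ρA hA).Z1) (hz : z ∈ (lvl h𝒰 ρA hA).B1)
    (z' : (lvl h𝒰 ρA' hA').Z1) : cupZ h𝒰 hA hA' hT β hβ z z' = 0 := by
  obtain ⟨a, ha⟩ := ((lvl h𝒰 ρA hA).mem_B1_iff z).1 hz
  have ha' : dZero ρA a = fn h𝒰 z := congrArg Subtype.val ha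
  unfold cupZ
  rw [cl2_eq_zero_iff]
  refine ⟨fun g => β a (fn h𝒰 z' g), (fn_level h𝒰 z').comp (β a), ?_⟩
  rw [← ha', cupFun_dZero_left β hβ a (fn_cocycle h𝒰 z')]

lemma cupZ_eq_zero_of_right (z : (lvl h𝒰 ρA hA).Z1) (z' : (lvl h𝒰 ρA' hA').Z1)
    (hz' : z' ∈ (lvl h𝒰 ρA' hA').B1) : cupZ h𝒰 hA hA' hT β hβ z z' = 0 := by
  obtain ⟨a', ha⟩ := ((lvl h𝒰 ρA' hA').mem_B1_iff z').1 hz'
  have ha' : dZero ρA' a' = fn h𝒰 z' := congrArg Subtype.val ha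
  unfold cupZ
  rw [cl2_eq_zero_iff]
  refine ⟨-(fun g => β (fn h𝒰 z g) (ρA' g a')), ?_, ?_⟩
  · have h1 : IsLevel₁ 𝒰 (fun g => β (fn h𝒰 z g) (ρA' g a')) :=
      isLevel₁_cup10 h𝒰 hA' (fun a a' => β a a') (fn_level h𝒰 z) a'
    exact h1.comp (fun t => -t)
  · rw [← ha', cupFun_dZero_right β hβ (fn_cocycle h𝒰 z) a']

lemma cupZlin_eq_zero_of_left (z : (lvl h𝒰 ρA hA).Z1) (hz : z ∈ (lvl h𝒰 ρA hA).B1) :
    cupZlin h𝒰 hA hA' hT β hβ z = 0 :=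
  LinearMap.ext fun z' => cupZ_eq_zero_of_left h𝒰 hA hA' hT β hβ z hz z'

/-- **The cup product** `Hlev1(A) × Hlev1(A') → Hlev2(T)` attached to an equivariant bilinear map
`β : A × A' → T`. -/
noncomputable def cup : Hlev1 h𝒰 ρA hA →ₗ[k] Hlev1 h𝒰 ρA' hA' →ₗ[k] Hlev2 h𝒰 ρT hT :=
  liftH1H1 (lvl h𝒰 ρA hA) (lvl h𝒰 ρA' hA') (cupZlin h𝒰 hA hA' hT β hβ)
    (cupZlin_eq_zero_of_left h𝒰 hA hA' hT β hβ)
    (fun z z' hz' => cupZ_eq_zero_of_right h𝒰 hA hA' hT β hβ z z' hz')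

lemma cup_π1 (z : (lvl h𝒰 ρA hA).Z1) (z' : (lvl h𝒰 ρA' hA').Z1) :
    cup h𝒰 hA hA' hT β hβ ((lvl h𝒰 ρA hA).π1 z) ((lvl h𝒰 ρA' hA').π1 z') =
      cupZ h𝒰 hA hA' hT β hβ z z' := rfl

/-- The cup product on classes of raw cocycles. -/
theorem cup_cl1 (x : G → A) (hxl : IsLevel₁ 𝒰 x) (hxc : dOne ρA x = 0)
    (y : G → A') (hyl : IsLevel₁ 𝒰 y) (hyc : dOne ρA' y = 0) :
    cup h𝒰 hA hA' hT β hβ (cl1 h𝒰 ρA hA x hxl hxc) (cl1 h𝒰 ρA' hA' y hyl hyc) =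
      cl2 h𝒰 ρT hT (cupFun ρA' β x y) (isLevel₂_cupFun h𝒰 hA' β hxl hyl)
        (dTwo_cupFun β hβ hxc hyc) := rfl

end Cup

/-! ## Naturality -/

section CoefficientMap

variable {k G : Type*} [CommRing k] [Group G] {𝒰 : Set (Subgroup G)}
variable {A A' T T' : Type*} [AddCommGroup A] [Module k A] [AddCommGroup A'] [Module k A']
  [AddCommGroup T] [Module k T] [AddCommGroup T'] [Module k T']
variable {ρA : Representation k G A} {ρA' : Representation k G A'} {ρT : Representation k G T}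
  {ρT' : Representation k G T'}
variable (h𝒰 : IsLevelBasis 𝒰) (hA : IsDiscrete 𝒰 ρA) (hA' : IsDiscrete 𝒰 ρA')
  (hT : IsDiscrete 𝒰 ρT) (hT' : IsDiscrete 𝒰 ρT')
variable (β : A →ₗ[k] A' →ₗ[k] T) (hβ : ∀ g a a', β (ρA g a) (ρA' g a') = ρT g (β a a'))
variable (γ : T →ₗ[k] T') (hγ : ∀ g t, γ (ρT g t) = ρT' g (γ t))

include hβ hγ in
lemma compr₂_equivariant (g : G) (a : A) (a' : A') :
    (β.compr₂ γ) (ρA g a) (ρA' g a') = ρT' g ((β.compr₂ γ) a a') := by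
  simp only [LinearMap.compr₂_apply, hβ, hγ]

omit [AddCommGroup A] [Module k A] [AddCommGroup A'] [Module k A'] in
lemma mapH2_cl2 (c : G × G → T) (hl : IsLevel₂ 𝒰 c) (hc : dTwo ρT c = 0) :
    (lvlHom h𝒰 hT hT' γ hγ).mapH2 (cl2 h𝒰 ρT hT c hl hc) =
      cl2 h𝒰 ρT' hT' (⇑γ ∘ c) (hl.comp _)
        (by rw [← comp_dTwo ρT ρT' γ hγ, hc]; funext q; simp) := rfl

/-- Naturality of the cup product in the coefficient module of the target. -/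
theorem mapH2_cup (x : Hlev1 h𝒰 ρA hA) (y : Hlev1 h𝒰 ρA' hA') :
    (lvlHom h𝒰 hT hT' γ hγ).mapH2 (cup h𝒰 hA hA' hT β hβ x y) =
      cup h𝒰 hA hA' hT' (β.compr₂ γ) (compr₂_equivariant β hβ γ hγ) x y := by
  obtain ⟨x, hxl, hxc, rfl⟩ := cl1_surjective x
  obtain ⟨y, hyl, hyc, rfl⟩ := cl1_surjective y
  rw [cup_cl1, cup_cl1, mapH2_cl2]
  apply cl2_congr
  funext ⟨g, h⟩
  rfl

end CoefficientMap

section ChangeOfGroup

variable {k G G' : Type*} [CommRing k] [Group G] [Group G']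
variable {𝒰 : Set (Subgroup G)} {𝒰' : Set (Subgroup G')}
variable {A A' T B B' U : Type*} [AddCommGroup A] [Module k A] [AddCommGroup A'] [Module k A']
  [AddCommGroup T] [Module k T] [AddCommGroup B] [Module k B] [AddCommGroup B'] [Module k B']
  [AddCommGroup U] [Module k U]
variable {ρA : Representation k G A} {ρA' : Representation k G A'} {ρT : Representation k G T}
variable {ρB : Representation k G' B} {ρB' : Representation k G' B'} {ρU : Representation k G' U}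
variable {f : G' →* G} (hf : IsLevelHom f 𝒰' 𝒰) (h𝒰 : IsLevelBasis 𝒰) (h𝒰' : IsLevelBasis 𝒰')
variable (hA : IsDiscrete 𝒰 ρA) (hA' : IsDiscrete 𝒰 ρA') (hT : IsDiscrete 𝒰 ρT)
variable (hB : IsDiscrete 𝒰' ρB) (hB' : IsDiscrete 𝒰' ρB') (hU : IsDiscrete 𝒰' ρU)
variable (β : A →ₗ[k] A' →ₗ[k] T) (hβ : ∀ g a a', β (ρA g a) (ρA' g a') = ρT g (β a a'))
variable (β' : B →ₗ[k] B' →ₗ[k] U) (hβ' : ∀ g b b', β' (ρB g b) (ρB' g b') = ρU g (β' b b'))
variable (φ : A →ₗ[k] B) (hφ : ∀ g a, φ (ρA (f g) a) = ρB g (φ a))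
variable (φ' : A' →ₗ[k] B') (hφ' : ∀ g a, φ' (ρA' (f g) a) = ρB' g (φ' a))
variable (θ : T →ₗ[k] U) (hθ : ∀ g t, θ (ρT (f g) t) = ρU g (θ t))

/-- Naturality of the cup product for a change of group. -/
theorem resH2_cup (hcompat : ∀ a a', θ (β a a') = β' (φ a) (φ' a'))
    (x : Hlev1 h𝒰 ρA hA) (y : Hlev1 h𝒰 ρA' hA') :
    resH2 hf h𝒰 h𝒰' hT hU θ hθ (cup h𝒰 hA hA' hT β hβ x y) =
      cup h𝒰' hB hB' hU β' hβ' (resH1 hf h𝒰 h𝒰' hA hB φ hφ x)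
        (resH1 hf h𝒰 h𝒰' hA' hB' φ' hφ' y) := by
  obtain ⟨x, hxl, hxc, rfl⟩ := cl1_surjective x
  obtain ⟨y, hyl, hyc, rfl⟩ := cl1_surjective y
  rw [cup_cl1, resH2_cl2, resH1_cl1, resH1_cl1, cup_cl1]
  apply cl2_congr
  funext ⟨g, h⟩
  simp only [Function.comp_apply, Prod.map_apply, cupFun_apply, hcompat, hφ']

end ChangeOfGroup

end Fermat.Agent.TW.Recip.CupLevel94
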