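/-
TW programme, WP3 (3b), file 2: the ABSTRACT RECIPROCITY LAW for cup-product local pairings.

Setting (the shape of `PT/PRO/MainWrap20`): a group `G` with level basis `𝒰`, local groups `G_q → G`,
discrete `G`-modules `A`, `A'`, `T` with an equivariant pairing `β : A × A' → T`, an equivariant
map `δ : T → I` ("`μ_p → E_S → I_S`"), `t : I → C` ("`I_S → C_S`") with `t ∘ δ = 0`, a finite
decomposition `id_I = ∑_q inc_q ∘ prj_q` and "evaluation" maps `ev_q : I_q → W_q` over `G_q → G`.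

Given a function `τ` on `H²(G, C)` additive on `p`-torsion and functions `σ_q` on `H²(G_q, W_q)`
with `τ (t_* inc_q* w) = σ_q (res_q w)` on `p`-torsion (i.e. `σ_q = λ_q · inv_q`), the LOCAL PAIRINGS

  `⟨x_q, y_q⟩_q := σ_q ((ev_q ∘ prj_q ∘ δ)_* (x_q ∪ y_q))`

satisfy `∑_q ⟨res_q x, res_q y⟩_q = 0` for all global classes `x ∈ H¹(G, A)`, `y ∈ H¹(G, A')`.
-/
import Mathlib
import Fermat.Agent.TW.Recip.CupLevel94

set_option autoImplicit false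

namespace Fermat.Agent.TW.Recip.Reciprocity94

open Function Fermat.Agent.PT.PRO.HyperLevel25 Fermat.Agent.PT.PRO.HyperRes25
  Fermat.Agent.PT.PRO.Resolved4 Fermat.Agent.PT.PRO.ExtPairing4
  Fermat.Agent.PT.PRO.PairingRes1 Fermat.Agent.TW.Recip.CupLevel94

/-! ## Functoriality of `mapH2` on representatives -/

section Functoriality

variable {k G : Type*} [CommRing k] [Group G] {𝒰 : Set (Subgroup G)}
variable {X Y Z : Type*} [AddCommGroup X] [Module k X] [AddCommGroup Y] [Module k Y]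
  [AddCommGroup Z] [Module k Z]
variable {ρX : Representation k G X} {ρY : Representation k G Y} {ρZ : Representation k G Z}
variable (h𝒰 : IsLevelBasis 𝒰) (hX : IsDiscrete 𝒰 ρX) (hY : IsDiscrete 𝒰 ρY)
  (hZ : IsDiscrete 𝒰 ρZ)

lemma cl2_zero (hl : IsLevel₂ 𝒰 (0 : G × G → X)) (hc : dTwo ρX (0 : G × G → X) = 0) :
    cl2 h𝒰 ρX hX 0 hl hc = 0 := by
  rw [cl2_eq_zero_iff]
  exact ⟨0, h𝒰.isLevel₁_const 0, map_zero _⟩

lemma cl2_eq_zero_of_eq_zero {c : G × G → X} (h : c = 0) (hl : IsLevel₂ 𝒰 c)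
    (hc : dTwo ρX c = 0) : cl2 h𝒰 ρX hX c hl hc = 0 := by
  subst h
  exact cl2_zero h𝒰 hX hl hc

lemma nsmul_cl2_eq_zero (p : ℕ) (hp : ∀ x : X, p • x = 0) (w : Hlev2 h𝒰 ρX hX) : p • w = 0 := by
  obtain ⟨c, hl, hc, rfl⟩ := cl2_surjective w
  have h1 : (p : k) • cl2 h𝒰 ρX hX c hl hc = p • cl2 h𝒰 ρX hX c hl hc :=
    Nat.cast_smul_eq_nsmul k p _
  have hpc : (p : k) • c = 0 := by
    funext q
    rw [Pi.smul_apply, Nat.cast_smul_eq_nsmul, hp, Pi.zero_apply]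
  rw [← h1, ← cl2_smul (p : k) hl hc (by rw [hpc]; exact h𝒰.isLevel₂_const 0)
    (by rw [hpc, map_zero])]
  exact cl2_eq_zero_of_eq_zero h𝒰 hX hpc _ _

variable (φ : X →ₗ[k] Y) (hφ : ∀ g x, φ (ρX g x) = ρY g (φ x))
variable (ψ : Y →ₗ[k] Z) (hψ : ∀ g y, ψ (ρY g y) = ρZ g (ψ y))

include hφ hψ in
lemma comp_equivariant (g : G) (x : X) : (ψ.comp φ) (ρX g x) = ρZ g ((ψ.comp φ) x) := by
  rw [LinearMap.comp_apply, hφ, hψ, LinearMap.comp_apply]

/-- `mapH2` is functorial. -/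
lemma mapH2_comp (w : Hlev2 h𝒰 ρX hX) :
    (lvlHom h𝒰 hY hZ ψ hψ).mapH2 ((lvlHom h𝒰 hX hY φ hφ).mapH2 w) =
      (lvlHom h𝒰 hX hZ (ψ.comp φ) (comp_equivariant φ hφ ψ hψ)).mapH2 w := by
  obtain ⟨c, hl, hc, rfl⟩ := cl2_surjective w
  rw [mapH2_cl2, mapH2_cl2, mapH2_cl2]
  rfl

/-- `mapH2` of a map which is zero is zero. -/
lemma mapH2_eq_zero_of_eq_zero (h0 : ∀ x, φ x = 0) (w : Hlev2 h𝒰 ρX hX) :
    (lvlHom h𝒰 hX hY φ hφ).mapH2 w = 0 := by
  obtain ⟨c, hl, hc, rfl⟩ := cl2_surjective w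
  rw [mapH2_cl2]
  apply cl2_eq_zero_of_eq_zero
  funext q
  exact h0 _

/-- `mapH2` only depends on the underlying map. -/
lemma mapH2_congr {φ φ' : X →ₗ[k] Y} (h : φ = φ') (hφ : ∀ g x, φ (ρX g x) = ρY g (φ x))
    (hφ' : ∀ g x, φ' (ρX g x) = ρY g (φ' x)) (w : Hlev2 h𝒰 ρX hX) :
    (lvlHom h𝒰 hX hY φ hφ).mapH2 w = (lvlHom h𝒰 hX hY φ' hφ').mapH2 w := by
  subst h
  rfl

/-- `mapH2` is additive in the map. -/
lemma mapH2_add (φ' : X →ₗ[k] Y) (hφ' : ∀ g x, φ' (ρX g x) = ρY g (φ' x))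
    (hsum : ∀ g x, (φ + φ') (ρX g x) = ρY g ((φ + φ') x)) (w : Hlev2 h𝒰 ρX hX) :
    (lvlHom h𝒰 hX hY (φ + φ') hsum).mapH2 w =
      (lvlHom h𝒰 hX hY φ hφ).mapH2 w + (lvlHom h𝒰 hX hY φ' hφ').mapH2 w := by
  obtain ⟨c, hl, hc, rfl⟩ := cl2_surjective w
  rw [mapH2_cl2, mapH2_cl2, mapH2_cl2]
  apply cl2_eq_add
  funext q
  rfl

/-- `mapH2` of the identity. -/
lemma mapH2_id (hid : ∀ g x, (LinearMap.id : X →ₗ[k] X) (ρX g x) = ρX g (LinearMap.id x))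
    (w : Hlev2 h𝒰 ρX hX) : (lvlHom h𝒰 hX hX LinearMap.id hid).mapH2 w = w := by
  obtain ⟨c, hl, hc, rfl⟩ := cl2_surjective w
  rw [mapH2_cl2]
  rfl

end Functoriality

/-! ## Finite sums of equivariant maps -/

section Sums

variable {k G : Type*} [CommRing k] [Group G] {𝒰 : Set (Subgroup G)}
variable {X Y : Type*} [AddCommGroup X] [Module k X] [AddCommGroup Y] [Module k Y]
variable {ρX : Representation k G X} {ρY : Representation k G Y}
variable (h𝒰 : IsLevelBasis 𝒰) (hX : IsDiscrete 𝒰 ρX) (hY : IsDiscrete 𝒰 ρY)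
variable {ι : Type*}

lemma sum_equivariant (s : Finset ι) (φ : ι → X →ₗ[k] Y)
    (hφ : ∀ q g x, φ q (ρX g x) = ρY g (φ q x)) (g : G) (x : X) :
    (∑ q ∈ s, φ q) (ρX g x) = ρY g ((∑ q ∈ s, φ q) x) := by
  simp only [LinearMap.sum_apply, map_sum, hφ]

/-- `mapH2` of a finite sum of equivariant maps (general form). -/
lemma mapH2_sum' (s : Finset ι) (φ : ι → X →ₗ[k] Y)
    (hφ : ∀ q g x, φ q (ρX g x) = ρY g (φ q x)) (Φ : X →ₗ[k] Y) (hΦ : Φ = ∑ q ∈ s, φ q)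
    (hΦeq : ∀ g x, Φ (ρX g x) = ρY g (Φ x)) (w : Hlev2 h𝒰 ρX hX) :
    (lvlHom h𝒰 hX hY Φ hΦeq).mapH2 w =
      ∑ q ∈ s, (lvlHom h𝒰 hX hY (φ q) (hφ q)).mapH2 w := by
  classical
  induction s using Finset.induction_on generalizing Φ with
  | empty =>
    rw [Finset.sum_empty] at hΦ
    rw [Finset.sum_empty]
    exact mapH2_eq_zero_of_eq_zero h𝒰 hX hY _ _ (fun x => by rw [hΦ]; rfl) w
  | insert a s ha ih =>
    rw [Finset.sum_insert ha] at hΦ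
    rw [Finset.sum_insert ha, ← ih (∑ q ∈ s, φ q) rfl (sum_equivariant s φ hφ)]
    rw [mapH2_congr h𝒰 hX hY hΦ hΦeq
      (fun g x => by
        have h1 := hφ a g x
        have h2 := sum_equivariant s φ hφ g x
        rw [LinearMap.add_apply, h1, h2, LinearMap.add_apply, map_add]) w]
    exact mapH2_add h𝒰 hX hY _ _ _ _ _ w

/-- `mapH2` of a finite sum of equivariant maps. -/
lemma mapH2_sum (s : Finset ι) (φ : ι → X →ₗ[k] Y)
    (hφ : ∀ q g x, φ q (ρX g x) = ρY g (φ q x)) (w : Hlev2 h𝒰 ρX hX) :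
    (lvlHom h𝒰 hX hY (∑ q ∈ s, φ q) (sum_equivariant s φ hφ)).mapH2 w =
      ∑ q ∈ s, (lvlHom h𝒰 hX hY (φ q) (hφ q)).mapH2 w :=
  mapH2_sum' h𝒰 hX hY s φ hφ _ rfl _ w

end Sums

/-! ## The abstract reciprocity law -/

section Reciprocity

variable {k : Type*} [CommRing k] {G : Type*} [Group G] {𝒰 : Set (Subgroup G)}
variable {ι : Type*} [Fintype ι] {Gq : ι → Type*} [∀ q, Group (Gq q)]
  {𝒰q : ∀ q, Set (Subgroup (Gq q))}
variable {A A' T I C : Type*} [AddCommGroup A] [Module k A] [AddCommGroup A'] [Module k A']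
  [AddCommGroup T] [Module k T] [AddCommGroup I] [Module k I] [AddCommGroup C] [Module k C]
variable {Iq W : ι → Type*} [∀ q, AddCommGroup (Iq q)] [∀ q, Module k (Iq q)]
  [∀ q, AddCommGroup (W q)] [∀ q, Module k (W q)]
variable {ρA : Representation k G A} {ρA' : Representation k G A'} {ρT : Representation k G T}
  {ρI : Representation k G I} {ρC : Representation k G C}
  {ρIq : ∀ q, Representation k G (Iq q)} {ρW : ∀ q, Representation k (Gq q) (W q)}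
variable (h𝒰 : IsLevelBasis 𝒰) (h𝒰q : ∀ q, IsLevelBasis (𝒰q q))
  (r : ∀ q, Gq q →* G) (hr : ∀ q, IsLevelHom (r q) (𝒰q q) 𝒰)
variable (hA : IsDiscrete 𝒰 ρA) (hA' : IsDiscrete 𝒰 ρA') (hT : IsDiscrete 𝒰 ρT)
  (hI : IsDiscrete 𝒰 ρI) (hC : IsDiscrete 𝒰 ρC) (hIq : ∀ q, IsDiscrete 𝒰 (ρIq q))
  (hW : ∀ q, IsDiscrete (𝒰q q) (ρW q))
variable (β : A →ₗ[k] A' →ₗ[k] T) (hβ : ∀ g a a', β (ρA g a) (ρA' g a') = ρT g (β a a'))
variable (δ : T →ₗ[k] I) (hδ : ∀ g x, δ (ρT g x) = ρI g (δ x))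
variable (t : I →ₗ[k] C) (ht : ∀ g x, t (ρI g x) = ρC g (t x))
variable (inc : ∀ q, Iq q →ₗ[k] I) (hinc : ∀ q g x, inc q (ρIq q g x) = ρI g (inc q x))
variable (prj : ∀ q, I →ₗ[k] Iq q) (hprj : ∀ q g x, prj q (ρI g x) = ρIq q g (prj q x))
variable (ev : ∀ q, Iq q →ₗ[k] W q)
  (hev : ∀ q g x, ev q (ρIq q (r q g) x) = ρW q g (ev q x))

/-- The local coefficient map `θ_q = ev_q ∘ prj_q ∘ δ : T → W_q`. -/
def theta (q : ι) : T →ₗ[k] W q := (ev q).comp ((prj q).comp δ)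

omit [Fintype ι] in
include hδ hprj hev in
lemma theta_equivariant (q : ι) (g : Gq q) (x : T) :
    theta δ prj ev q ((ρT.comp (r q)) g x) = ρW q g (theta δ prj ev q x) := by
  simp only [theta, LinearMap.comp_apply, MonoidHom.comp_apply, hδ, hprj, hev]

/-- The local cup product at `q` with values in `H²(G_q, W_q)`:
`(x_q, y_q) ↦ (θ_q)_* (x_q ∪ y_q)`. -/
noncomputable def localCup (q : ι) :
    Hlev1 (h𝒰q q) (ρA.comp (r q)) ((hr q).isDiscrete hA) →ₗ[k]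
      Hlev1 (h𝒰q q) (ρA'.comp (r q)) ((hr q).isDiscrete hA') →ₗ[k]
        Hlev2 (h𝒰q q) (ρW q) (hW q) :=
  (cup (h𝒰q q) ((hr q).isDiscrete hA) ((hr q).isDiscrete hA') ((hr q).isDiscrete hT) β
    (fun g => hβ (r q g))).compr₂
    (lvlHom (h𝒰q q) ((hr q).isDiscrete hT) (hW q) (theta δ prj ev q)
      (theta_equivariant r δ hδ prj hprj ev hev q)).mapH2

/-- Restriction of global classes to `G_q` (coefficients unchanged). -/
noncomputable def locRes {Y : Type*} [AddCommGroup Y] [Module k Y] {ρ : Representation k G Y}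
    (hρ : IsDiscrete 𝒰 ρ) (q : ι) :
    Hlev1 h𝒰 ρ hρ →ₗ[k] Hlev1 (h𝒰q q) (ρ.comp (r q)) ((hr q).isDiscrete hρ) :=
  resH1 (hr q) h𝒰 (h𝒰q q) hρ ((hr q).isDiscrete hρ) LinearMap.id (fun _ _ => rfl)

omit [Fintype ι] in
/-- The key local–global compatibility: the `q`-component of the global cup product, pushed to
`I`, restricts to the local cup product of the restrictions. -/
theorem resH2_prj_cup (q : ι) (x : Hlev1 h𝒰 ρA hA) (y : Hlev1 h𝒰 ρA' hA') :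
    resH2 (hr q) h𝒰 (h𝒰q q) (hIq q) (hW q) (ev q) (hev q)
      ((lvlHom h𝒰 hI (hIq q) (prj q) (hprj q)).mapH2
        ((lvlHom h𝒰 hT hI δ hδ).mapH2 (cup h𝒰 hA hA' hT β hβ x y))) =
      localCup h𝒰q r hr hA hA' hT hW β hβ δ hδ prj hprj ev hev q
        (locRes h𝒰 h𝒰q r hr hA q x) (locRes h𝒰 h𝒰q r hr hA' q y) := by
  obtain ⟨x, hxl, hxc, rfl⟩ := cl1_surjective x
  obtain ⟨y, hyl, hyc, rfl⟩ := cl1_surjective y
  rw [cup_cl1, mapH2_cl2, mapH2_cl2, resH2_cl2]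
  unfold localCup locRes
  rw [LinearMap.compr₂_apply, resH1_cl1, resH1_cl1, cup_cl1, mapH2_cl2]
  apply cl2_congr
  funext ⟨g, h⟩
  rfl

variable (p : ℕ) (hpA : ∀ a : A, p • a = 0)
variable {Z : Type*} [AddCommMonoid Z] (τ : Hlev2 h𝒰 ρC hC → Z) (hτ0 : τ 0 = 0)
  (hτadd : ∀ x y, p • x = 0 → p • y = 0 → τ (x + y) = τ x + τ y)
variable (σ : ∀ q, Hlev2 (h𝒰q q) (ρW q) (hW q) → Z)

include hpA in
/-- Cup products with a `p`-torsion module are `p`-torsion. -/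
lemma nsmul_cup_eq_zero (x : Hlev1 h𝒰 ρA hA) (y : Hlev1 h𝒰 ρA' hA') :
    p • cup h𝒰 hA hA' hT β hβ x y = 0 := by
  obtain ⟨c, hl, hc, rfl⟩ := cl1_surjective x
  have h0 : p • cl1 h𝒰 ρA hA c hl hc = 0 := by
    have hpc : p • c = 0 := by
      funext g
      rw [Pi.smul_apply, hpA, Pi.zero_apply]
    have h1 : p • (lvl h𝒰 ρA hA).π1 (mkZ1 h𝒰 ρA hA c hl hc) =
        (lvl h𝒰 ρA hA).π1 (p • mkZ1 h𝒰 ρA hA c hl hc) := (map_nsmul _ _ _).symm
    unfold cl1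
    rw [h1]
    have h2 : p • mkZ1 h𝒰 ρA hA c hl hc = 0 := by
      apply Subtype.ext
      apply Subtype.ext
      exact hpc
    rw [h2, map_zero]
  rw [← LinearMap.smul_apply, ← map_nsmul, h0, map_zero, LinearMap.zero_apply]

omit [Fintype ι] in
lemma sum_tau_eq (s : Finset ι) (w : ι → Hlev2 h𝒰 ρC hC) (hw : ∀ q, p • w q = 0)
    (hτ0 : τ 0 = 0) (hτadd : ∀ x y, p • x = 0 → p • y = 0 → τ (x + y) = τ x + τ y) :
    τ (∑ q ∈ s, w q) = ∑ q ∈ s, τ (w q) := by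
  classical
  induction s using Finset.induction_on with
  | empty => simpa using hτ0
  | insert a s ha ih =>
    rw [Finset.sum_insert ha, Finset.sum_insert ha, hτadd _ _ (hw a) ?_, ih]
    rw [Finset.smul_sum]
    exact Finset.sum_eq_zero fun q _ => hw q

include hpA hτ0 hτadd in
/-- **Abstract reciprocity law.**  If `t ∘ δ = 0`, `id_I = ∑_q inc_q ∘ prj_q` and
`τ (t_* inc_q* w) = σ_q (res_q w)` on `p`-torsion, then the local pairings
`σ_q ∘ localCup q` of the restrictions of two global classes sum to zero. -/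
theorem reciprocity (htδ : ∀ x, t (δ x) = 0) (hsum : ∀ x : I, ∑ q, inc q (prj q x) = x)
    (hcompat : ∀ q (w : Hlev2 h𝒰 (ρIq q) (hIq q)), p • w = 0 →
      τ ((lvlHom h𝒰 hI hC t ht).mapH2 ((lvlHom h𝒰 (hIq q) hI (inc q) (hinc q)).mapH2 w)) =
        σ q (resH2 (hr q) h𝒰 (h𝒰q q) (hIq q) (hW q) (ev q) (hev q) w))
    (x : Hlev1 h𝒰 ρA hA) (y : Hlev1 h𝒰 ρA' hA') :
    ∑ q, σ q (localCup h𝒰q r hr hA hA' hT hW β hβ δ hδ prj hprj ev hev q
      (locRes h𝒰 h𝒰q r hr hA q x) (locRes h𝒰 h𝒰q r hr hA' q y)) = 0 := by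
  classical
  set z : Hlev2 h𝒰 ρI hI := (lvlHom h𝒰 hT hI δ hδ).mapH2 (cup h𝒰 hA hA' hT β hβ x y) with hz
  have hpz : p • z = 0 := by
    rw [hz, ← map_nsmul, nsmul_cup_eq_zero h𝒰 hA hA' hT β hβ p hpA, map_zero]
  -- the image of `z` in `H²(C)` vanishes
  have h1 : (lvlHom h𝒰 hI hC t ht).mapH2 z = 0 := by
    rw [hz, mapH2_comp]
    exact mapH2_eq_zero_of_eq_zero h𝒰 hT hC _ _ (fun x => htδ x) _
  -- decomposition of `z`
  have h2 : z = ∑ q, (lvlHom h𝒰 (hIq q) hI (inc q) (hinc q)).mapH2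
      ((lvlHom h𝒰 hI (hIq q) (prj q) (hprj q)).mapH2 z) := by
    have e1 : (LinearMap.id : I →ₗ[k] I) = ∑ q, (inc q).comp (prj q) := by
      ext x
      rw [LinearMap.id_apply, LinearMap.sum_apply]
      exact (hsum x).symm
    calc z = (lvlHom h𝒰 hI hI LinearMap.id (fun _ _ => rfl)).mapH2 z :=
          (mapH2_id h𝒰 hI _ z).symm
      _ = (lvlHom h𝒰 hI hI (∑ q, (inc q).comp (prj q))
            (sum_equivariant Finset.univ (fun q => (inc q).comp (prj q))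
              (fun q => comp_equivariant (prj q) (hprj q) (inc q) (hinc q)))).mapH2 z :=
          mapH2_congr h𝒰 hI hI e1 _ _ z
      _ = ∑ q, (lvlHom h𝒰 hI hI ((inc q).comp (prj q))
            (comp_equivariant (prj q) (hprj q) (inc q) (hinc q))).mapH2 z :=
          mapH2_sum h𝒰 hI hI Finset.univ (fun q => (inc q).comp (prj q)) _ z
      _ = _ := Finset.sum_congr rfl fun q _ =>
          (mapH2_comp h𝒰 hI (hIq q) hI (prj q) (hprj q) (inc q) (hinc q) z).symm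
  have hpw : ∀ q, p • (lvlHom h𝒰 hI (hIq q) (prj q) (hprj q)).mapH2 z = 0 := fun q => by
    rw [← map_nsmul, hpz, map_zero]
  calc ∑ q, σ q (localCup h𝒰q r hr hA hA' hT hW β hβ δ hδ prj hprj ev hev q
        (locRes h𝒰 h𝒰q r hr hA q x) (locRes h𝒰 h𝒰q r hr hA' q y))
      = ∑ q, τ ((lvlHom h𝒰 hI hC t ht).mapH2 ((lvlHom h𝒰 (hIq q) hI (inc q) (hinc q)).mapH2
          ((lvlHom h𝒰 hI (hIq q) (prj q) (hprj q)).mapH2 z))) := by
        refine Finset.sum_congr rfl fun q _ => ?_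
        rw [hcompat q _ (hpw q), hz,
          resH2_prj_cup h𝒰 h𝒰q r hr hA hA' hT hI hIq hW β hβ δ hδ prj hprj ev hev q x y]
    _ = τ (∑ q, (lvlHom h𝒰 hI hC t ht).mapH2 ((lvlHom h𝒰 (hIq q) hI (inc q) (hinc q)).mapH2
          ((lvlHom h𝒰 hI (hIq q) (prj q) (hprj q)).mapH2 z))) := by
        rw [sum_tau_eq h𝒰 hC p τ Finset.univ _ (fun q => by
          rw [← map_nsmul, ← map_nsmul, hpw q, map_zero, map_zero]) hτ0 hτadd]
    _ = τ ((lvlHom h𝒰 hI hC t ht).mapH2 z) := by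
        rw [← map_sum, ← h2]
    _ = 0 := by rw [h1, hτ0]

end Reciprocity

end Fermat.Agent.TW.Recip.Reciprocity94
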