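/-
TW programme, WP3 (3b), file 3: the ABSTRACT RECIPROCITY LAW at the level of CLASSES, and the
comparison of two invariant maps.

* `reciprocity_class`: in the setting of `Reciprocity94` (maps `t : I → C`, a finite decomposition
  `id_I = ∑_q inc_q ∘ prj_q`, evaluations `ev_q : I_q → W_q` over `G_q → G`, a function `τ` on
  `H²(G, C)` additive on `p`-torsion and functions `σ_q` on `H²(G_q, W_q)` with
  `τ (t_* inc_q* w) = σ_q (res_q w)` on `p`-torsion), every `p`-torsion class `z ∈ H²(G, I)` with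
  `t_* z = 0` satisfies `∑_q σ_q (res_q (prj_q)_* z) = 0`;
* `reciprocity_of_factor`: the same for `z = δ_* w`, `w ∈ H²(G, E)[p]`, `t ∘ δ = 0`, in terms of
  the restrictions `res_q (ev_q ∘ prj_q ∘ δ)_* w`;
* `exists_ne_zero_mul_of_injective`: two injective homomorphisms `G → ℤ/p` differ by a unit;
* `pTorMap` (maps on `p`-torsion) and `reciprocity_inv`, `exists_lam_of_injective`: the reciprocity
  law for INVARIANT MAPS `τ : H²(G, C)[p] →+ R`, `tq q : H²(G_q, W_q)[p] →+ R` (relational form: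
  no subtype bookkeeping is imposed on the user).
-/
import Mathlib
import Fermat.Agent.TW.Recip.Reciprocity94
import Fermat.Agent.PT.PRO.InvP4

set_option autoImplicit false

namespace Fermat.Agent.TW.Recip.RecipClass94

open Function Fermat.Agent.PT.PRO.HyperLevel25 Fermat.Agent.PT.PRO.HyperRes25
  Fermat.Agent.PT.PRO.Resolved4 Fermat.Agent.PT.PRO.ExtPairing4
  Fermat.Agent.PT.PRO.PairingRes1 Fermat.Agent.TW.Recip.CupLevel94
  Fermat.Agent.TW.Recip.Reciprocity94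

/-! ## Two injective maps to `ℤ/p` differ by a unit -/

section Unit

/-- Two injective additive maps from the same group to `ℤ/p` differ by a nonzero scalar. -/
theorem exists_ne_zero_mul_of_injective {p : ℕ} [Fact p.Prime] {G : Type*} [AddCommGroup G]
    (f₁ f₂ : G →+ ZMod p) (h₁ : Injective f₁) (h₂ : Injective f₂) :
    ∃ lam : ZMod p, lam ≠ 0 ∧ ∀ g, f₁ g = lam * f₂ g := by
  classical
  by_cases hz : ∀ g : G, g = 0
  · exact ⟨1, one_ne_zero, fun g => by rw [hz g, map_zero, map_zero, mul_zero]⟩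
  · push Not at hz
    obtain ⟨g₀, hg₀⟩ := hz
    have h10 : f₁ g₀ ≠ 0 := fun h => hg₀ (h₁ (by rw [h, map_zero]))
    have h20 : f₂ g₀ ≠ 0 := fun h => hg₀ (h₂ (by rw [h, map_zero]))
    refine ⟨f₁ g₀ * (f₂ g₀)⁻¹, mul_ne_zero h10 (inv_ne_zero h20), fun g => ?_⟩
    -- `g = n • g₀` for `n` a lift of `f₂ g / f₂ g₀`
    set c : ZMod p := f₂ g * (f₂ g₀)⁻¹ with hc
    have hg : g = c.val • g₀ := by
      apply h₂
      rw [map_nsmul, nsmul_eq_mul, ZMod.natCast_zmod_val, hc, mul_assoc, inv_mul_cancel₀ h20,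
        mul_one]
    have h3 : f₁ g = c * f₁ g₀ := by
      conv_lhs => rw [hg]
      rw [map_nsmul, nsmul_eq_mul, ZMod.natCast_zmod_val]
    rw [h3, hc]
    ring

end Unit

/-! ## The class-level reciprocity law -/

section Reciprocity

variable {k : Type*} [CommRing k] {G : Type*} [Group G] {𝒰 : Set (Subgroup G)}
variable {ι : Type*} [Fintype ι] {Gq : ι → Type*} [∀ q, Group (Gq q)]
  {𝒰q : ∀ q, Set (Subgroup (Gq q))}
variable {E I C : Type*} [AddCommGroup E] [Module k E] [AddCommGroup I] [Module k I]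
  [AddCommGroup C] [Module k C]
variable {Iq W : ι → Type*} [∀ q, AddCommGroup (Iq q)] [∀ q, Module k (Iq q)]
  [∀ q, AddCommGroup (W q)] [∀ q, Module k (W q)]
variable {ρE : Representation k G E}
  {ρI : Representation k G I} {ρC : Representation k G C}
  {ρIq : ∀ q, Representation k G (Iq q)} {ρW : ∀ q, Representation k (Gq q) (W q)}
variable (h𝒰 : IsLevelBasis 𝒰) (h𝒰q : ∀ q, IsLevelBasis (𝒰q q))
  (r : ∀ q, Gq q →* G) (hr : ∀ q, IsLevelHom (r q) (𝒰q q) 𝒰)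
variable (hE : IsDiscrete 𝒰 ρE)
  (hI : IsDiscrete 𝒰 ρI) (hC : IsDiscrete 𝒰 ρC) (hIq : ∀ q, IsDiscrete 𝒰 (ρIq q))
  (hW : ∀ q, IsDiscrete (𝒰q q) (ρW q))
variable (δ : E →ₗ[k] I) (hδ : ∀ g x, δ (ρE g x) = ρI g (δ x))
variable (t : I →ₗ[k] C) (ht : ∀ g x, t (ρI g x) = ρC g (t x))
variable (inc : ∀ q, Iq q →ₗ[k] I) (hinc : ∀ q g x, inc q (ρIq q g x) = ρI g (inc q x))
variable (prj : ∀ q, I →ₗ[k] Iq q) (hprj : ∀ q g x, prj q (ρI g x) = ρIq q g (prj q x))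
variable (ev : ∀ q, Iq q →ₗ[k] W q)
  (hev : ∀ q g x, ev q (ρIq q (r q g) x) = ρW q g (ev q x))
variable (p : ℕ)
variable {Z : Type*} [AddCommMonoid Z] (τ : Hlev2 h𝒰 ρC hC → Z) (hτ0 : τ 0 = 0)
  (hτadd : ∀ x y, p • x = 0 → p • y = 0 → τ (x + y) = τ x + τ y)
variable (σ : ∀ q, Hlev2 (h𝒰q q) (ρW q) (hW q) → Z)

include hτ0 hτadd in
/-- **Abstract reciprocity law, class form.**  If `id_I = ∑_q inc_q ∘ prj_q` and
`τ (t_* inc_q* w) = σ_q (res_q w)` on `p`-torsion, then every `p`-torsion class `z` of `H²(G, I)`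
dying in `H²(G, C)` has `∑_q σ_q (res_q (prj_q)_* z) = 0`. -/
theorem reciprocity_class (hsum : ∀ x : I, ∑ q, inc q (prj q x) = x)
    (hcompat : ∀ q (w : Hlev2 h𝒰 (ρIq q) (hIq q)), p • w = 0 →
      τ ((lvlHom h𝒰 hI hC t ht).mapH2 ((lvlHom h𝒰 (hIq q) hI (inc q) (hinc q)).mapH2 w)) =
        σ q (resH2 (hr q) h𝒰 (h𝒰q q) (hIq q) (hW q) (ev q) (hev q) w))
    (z : Hlev2 h𝒰 ρI hI) (hpz : p • z = 0) (h1 : (lvlHom h𝒰 hI hC t ht).mapH2 z = 0) :
    ∑ q, σ q (resH2 (hr q) h𝒰 (h𝒰q q) (hIq q) (hW q) (ev q) (hev q)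
      ((lvlHom h𝒰 hI (hIq q) (prj q) (hprj q)).mapH2 z)) = 0 := by
  classical
  -- decomposition of `z`
  have h2 : z = ∑ q, (lvlHom h𝒰 (hIq q) hI (inc q) (hinc q)).mapH2
      ((lvlHom h𝒰 hI (hIq q) (prj q) (hprj q)).mapH2 z) := by
    have e1 : (LinearMap.id : I →ₗ[k] I) = ∑ q, (inc q).comp (prj q) := by
      ext x
      rw [LinearMap.id_apply, LinearMap.sum_apply]
      exact (hsum x).symm
    calc z = (lvlHom h𝒰 hI hI LinearMap.id (fun _ _ => rfl)).mapH2 z :=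
          (mapH2_id h𝒰 hI _ z).symm
      _ = (lvlHom h𝒰 hI hI (∑ q, (inc q).comp (prj q))
            (sum_equivariant Finset.univ (fun q => (inc q).comp (prj q))
              (fun q => comp_equivariant (prj q) (hprj q) (inc q) (hinc q)))).mapH2 z :=
          mapH2_congr h𝒰 hI hI e1 _ _ z
      _ = ∑ q, (lvlHom h𝒰 hI hI ((inc q).comp (prj q))
            (comp_equivariant (prj q) (hprj q) (inc q) (hinc q))).mapH2 z :=
          mapH2_sum h𝒰 hI hI Finset.univ (fun q => (inc q).comp (prj q)) _ z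
      _ = _ := Finset.sum_congr rfl fun q _ =>
          (mapH2_comp h𝒰 hI (hIq q) hI (prj q) (hprj q) (inc q) (hinc q) z).symm
  have hpw : ∀ q, p • (lvlHom h𝒰 hI (hIq q) (prj q) (hprj q)).mapH2 z = 0 := fun q => by
    rw [← map_nsmul, hpz, map_zero]
  calc ∑ q, σ q (resH2 (hr q) h𝒰 (h𝒰q q) (hIq q) (hW q) (ev q) (hev q)
        ((lvlHom h𝒰 hI (hIq q) (prj q) (hprj q)).mapH2 z))
      = ∑ q, τ ((lvlHom h𝒰 hI hC t ht).mapH2 ((lvlHom h𝒰 (hIq q) hI (inc q) (hinc q)).mapH2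
          ((lvlHom h𝒰 hI (hIq q) (prj q) (hprj q)).mapH2 z))) := by
        refine Finset.sum_congr rfl fun q _ => ?_
        rw [hcompat q _ (hpw q)]
    _ = τ (∑ q, (lvlHom h𝒰 hI hC t ht).mapH2 ((lvlHom h𝒰 (hIq q) hI (inc q) (hinc q)).mapH2
          ((lvlHom h𝒰 hI (hIq q) (prj q) (hprj q)).mapH2 z))) := by
        rw [sum_tau_eq h𝒰 hC p τ Finset.univ _ (fun q => by
          rw [← map_nsmul, ← map_nsmul, hpw q, map_zero, map_zero]) hτ0 hτadd]
    _ = τ ((lvlHom h𝒰 hI hC t ht).mapH2 z) := by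
        rw [← map_sum, ← h2]
    _ = 0 := by rw [h1, hτ0]

omit [Fintype ι] in
/-- `res_q ∘ (prj_q)_* ∘ δ_* = res_q` along `ev_q ∘ prj_q ∘ δ`. -/
theorem resH2_prj_map (q : ι) (w : Hlev2 h𝒰 ρE hE) :
    resH2 (hr q) h𝒰 (h𝒰q q) (hIq q) (hW q) (ev q) (hev q)
      ((lvlHom h𝒰 hI (hIq q) (prj q) (hprj q)).mapH2 ((lvlHom h𝒰 hE hI δ hδ).mapH2 w)) =
    resH2 (hr q) h𝒰 (h𝒰q q) hE (hW q) (theta δ prj ev q)
      (fun g x => by
        simp only [theta, LinearMap.comp_apply, hδ, hprj, hev]) w := by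
  obtain ⟨c, hl, hc, rfl⟩ := cl2_surjective w
  rw [mapH2_cl2, mapH2_cl2, resH2_cl2, resH2_cl2]
  apply cl2_congr
  funext ⟨g, h⟩
  rfl

include hτ0 hτadd in
/-- **Abstract reciprocity law for classes coming from `E`** (`t ∘ δ = 0`). -/
theorem reciprocity_of_factor (htδ : ∀ x, t (δ x) = 0)
    (hsum : ∀ x : I, ∑ q, inc q (prj q x) = x)
    (hcompat : ∀ q (w : Hlev2 h𝒰 (ρIq q) (hIq q)), p • w = 0 →
      τ ((lvlHom h𝒰 hI hC t ht).mapH2 ((lvlHom h𝒰 (hIq q) hI (inc q) (hinc q)).mapH2 w)) =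
        σ q (resH2 (hr q) h𝒰 (h𝒰q q) (hIq q) (hW q) (ev q) (hev q) w))
    (w : Hlev2 h𝒰 ρE hE) (hpw : p • w = 0) :
    ∑ q, σ q (resH2 (hr q) h𝒰 (h𝒰q q) hE (hW q) (theta δ prj ev q)
      (fun g x => by
        simp only [theta, LinearMap.comp_apply, hδ, hprj, hev]) w) = 0 := by
  have h0 := reciprocity_class h𝒰 h𝒰q r hr hI hC hIq hW t ht inc hinc prj hprj ev hev p τ hτ0
    hτadd σ hsum hcompat ((lvlHom h𝒰 hE hI δ hδ).mapH2 w)
    (by rw [← map_nsmul, hpw, map_zero])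
    (by
      rw [mapH2_comp]
      exact mapH2_eq_zero_of_eq_zero h𝒰 hE hC _ _ (fun x => htδ x) _)
  rw [← h0]
  refine Finset.sum_congr rfl fun q _ => ?_
  rw [resH2_prj_map h𝒰 h𝒰q r hr hE hI hIq hW δ hδ prj hprj ev hev q w]

end Reciprocity

/-! ## Maps on `p`-torsion -/

section PTorMap

open Fermat.Agent.PT.PRO.InvP4

lemma nsmul_apply_eq_zero {A B F : Type*} [AddCommGroup A] [AddCommGroup B] [FunLike F A B]
    [AddMonoidHomClass F A B] (f : F) (p : ℕ) {x : A} (h : p • x = 0) : p • f x = 0 := by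
  rw [← map_nsmul, h, map_zero]

variable (p : ℕ) {A B : Type*} [AddCommGroup A] [AddCommGroup B]

/-- The map induced on `p`-torsion by an additive map. -/
def pTorMap (f : A →+ B) : pTor p A →+ pTor p B where
  toFun x := ⟨f (x : A), nsmul_apply_eq_zero f p x.2⟩
  map_zero' := Subtype.ext (map_zero f)
  map_add' x y := Subtype.ext (map_add f (x : A) (y : A))

@[simp] lemma coe_pTorMap (f : A →+ B) (x : pTor p A) : (pTorMap p f x : B) = f (x : A) := rfl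

lemma pTorMap_injective_of (f : A →+ B) (hf : ∀ x : A, p • x = 0 → f x = 0 → x = 0) :
    Injective (pTorMap p f) := by
  rw [injective_iff_map_eq_zero]
  intro x hx
  exact Subtype.ext (hf x x.2 (congrArg Subtype.val hx))

/-- Composed form of `exists_ne_zero_mul_of_injective`. -/
theorem exists_ne_zero_mul_of_injective' [Fact p.Prime] {G H₁ H₂ : Type*} [AddCommGroup G]
    [AddCommGroup H₁] [AddCommGroup H₂] (f₁ : G →+ H₁) (τ₁ : H₁ →+ ZMod p) (f₂ : G →+ H₂)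
    (τ₂ : H₂ →+ ZMod p) (hf₁ : Injective f₁) (hτ₁ : Injective τ₁) (hf₂ : Injective f₂)
    (hτ₂ : Injective τ₂) :
    ∃ lam : ZMod p, lam ≠ 0 ∧ ∀ g, τ₁ (f₁ g) = lam * τ₂ (f₂ g) :=
  exists_ne_zero_mul_of_injective (τ₁.comp f₁) (τ₂.comp f₂) (hτ₁.comp hf₁) (hτ₂.comp hf₂)

end PTorMap

/-! ## Reciprocity for invariant maps -/

section Invariants

open Fermat.Agent.PT.PRO.InvP4

variable {k : Type*} [CommRing k] {G : Type*} [Group G] {𝒰 : Set (Subgroup G)}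
variable {ι : Type*} [Fintype ι] {Gq : ι → Type*} [∀ q, Group (Gq q)]
  {𝒰q : ∀ q, Set (Subgroup (Gq q))}
variable {E I C : Type*} [AddCommGroup E] [Module k E] [AddCommGroup I] [Module k I]
  [AddCommGroup C] [Module k C]
variable {Iq W : ι → Type*} [∀ q, AddCommGroup (Iq q)] [∀ q, Module k (Iq q)]
  [∀ q, AddCommGroup (W q)] [∀ q, Module k (W q)]
variable {ρE : Representation k G E}
  {ρI : Representation k G I} {ρC : Representation k G C}
  {ρIq : ∀ q, Representation k G (Iq q)} {ρW : ∀ q, Representation k (Gq q) (W q)}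
variable (h𝒰 : IsLevelBasis 𝒰) (h𝒰q : ∀ q, IsLevelBasis (𝒰q q))
  (r : ∀ q, Gq q →* G) (hr : ∀ q, IsLevelHom (r q) (𝒰q q) 𝒰)
variable (hE : IsDiscrete 𝒰 ρE)
  (hI : IsDiscrete 𝒰 ρI) (hC : IsDiscrete 𝒰 ρC) (hIq : ∀ q, IsDiscrete 𝒰 (ρIq q))
  (hW : ∀ q, IsDiscrete (𝒰q q) (ρW q))
variable (δ : E →ₗ[k] I) (hδ : ∀ g x, δ (ρE g x) = ρI g (δ x))
variable (t : I →ₗ[k] C) (ht : ∀ g x, t (ρI g x) = ρC g (t x))
variable (inc : ∀ q, Iq q →ₗ[k] I) (hinc : ∀ q g x, inc q (ρIq q g x) = ρI g (inc q x))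
variable (prj : ∀ q, I →ₗ[k] Iq q) (hprj : ∀ q g x, prj q (ρI g x) = ρIq q g (prj q x))
variable (ev : ∀ q, Iq q →ₗ[k] W q)
  (hev : ∀ q g x, ev q (ρIq q (r q g) x) = ρW q g (ev q x))
variable (p : ℕ)
variable {R : Type*} [Semiring R] (τ : pTor p (Hlev2 h𝒰 ρC hC) →+ R)
  (tq : ∀ q, pTor p (Hlev2 (h𝒰q q) (ρW q) (hW q)) →+ R) (lam : ι → R)

/-- **Reciprocity for invariant maps, relational form.**  If `τ (t_* inc_q* w) = lam q * tq q (res_q
w)` for `p`-torsion `w ∈ H²(G, I_q)` (stated relationally: for all elements `a`, `b` of the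
`p`-torsion subgroups with these values), then `∑_q lam q * tq q (u q) = 0` whenever the `u q` are
the localisations of one `p`-torsion class `w ∈ H²(G, E)` (`t ∘ δ = 0`). -/
theorem reciprocity_inv (htδ : ∀ x, t (δ x) = 0)
    (hsum : ∀ x : I, ∑ q, inc q (prj q x) = x)
    (hcompat : ∀ q (w : Hlev2 h𝒰 (ρIq q) (hIq q)), p • w = 0 →
      ∀ (a : pTor p (Hlev2 h𝒰 ρC hC)) (b : pTor p (Hlev2 (h𝒰q q) (ρW q) (hW q))),
        (a : Hlev2 h𝒰 ρC hC) = (lvlHom h𝒰 hI hC t ht).mapH2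
          ((lvlHom h𝒰 (hIq q) hI (inc q) (hinc q)).mapH2 w) →
        (b : Hlev2 (h𝒰q q) (ρW q) (hW q)) =
          resH2 (hr q) h𝒰 (h𝒰q q) (hIq q) (hW q) (ev q) (hev q) w →
        τ a = lam q * tq q b)
    (w : Hlev2 h𝒰 ρE hE) (hpw : p • w = 0)
    (u : ∀ q, pTor p (Hlev2 (h𝒰q q) (ρW q) (hW q)))
    (hu : ∀ q, (u q : Hlev2 (h𝒰q q) (ρW q) (hW q)) =
      resH2 (hr q) h𝒰 (h𝒰q q) hE (hW q) (theta δ prj ev q)
        (fun g x => by simp only [theta, LinearMap.comp_apply, hδ, hprj, hev]) w) :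
    ∑ q, lam q * tq q (u q) = 0 := by
  classical
  -- the extended invariants
  have hτ'eq : ∀ (z : Hlev2 h𝒰 ρC hC) (h : p • z = 0),
      (if h' : p • z = 0 then τ ⟨z, h'⟩ else 0) = τ ⟨z, h⟩ :=
    fun z h => dif_pos h
  have hσeq : ∀ q (z : Hlev2 (h𝒰q q) (ρW q) (hW q)) (h : p • z = 0),
      (if h' : p • z = 0 then lam q * tq q ⟨z, h'⟩ else 0) = lam q * tq q ⟨z, h⟩ :=
    fun q z h => dif_pos h
  have h0 := reciprocity_of_factor h𝒰 h𝒰q r hr hE hI hC hIq hW δ hδ t ht inc hinc prj hprj ev hev p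
    (fun z => if h : p • z = 0 then τ ⟨z, h⟩ else 0)
    (by rw [hτ'eq 0 (smul_zero p)]; exact map_zero τ)
    (fun x y hx hy => by
      have hxy : p • (x + y) = 0 := by rw [smul_add, hx, hy, add_zero]
      rw [hτ'eq _ hxy, hτ'eq _ hx, hτ'eq _ hy]
      exact map_add τ ⟨x, hx⟩ ⟨y, hy⟩)
    (fun q z => if h : p • z = 0 then lam q * tq q ⟨z, h⟩ else 0)
    htδ hsum
    (fun q z hpz => by
      rw [hτ'eq _ (nsmul_apply_eq_zero _ p (nsmul_apply_eq_zero _ p hpz)),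
        hσeq q _ (nsmul_apply_eq_zero _ p hpz)]
      exact hcompat q z hpz _ _ rfl rfl)
    w hpw
  rw [← h0]
  refine Finset.sum_congr rfl fun q _ => ?_
  have e : p • (resH2 (hr q) h𝒰 (h𝒰q q) hE (hW q) (theta δ prj ev q)
      (fun g x => by simp only [theta, LinearMap.comp_apply, hδ, hprj, hev]) w) = 0 :=
    nsmul_apply_eq_zero _ p hpw
  rw [hσeq q _ e]
  congr 2
  exact Subtype.ext (hu q)

/-- **Existence of the comparison scalars.**  If moreover `τ` and the `tq q` are injective with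
values in `ℤ/p`, `t_* ∘ inc_q*` is injective on `p`-torsion ((LG)) and `res_q` is injective on
`H²(G, I_q)` ((S2)), there are NONZERO `lam q ∈ ℤ/p` with `∑_q lam q * tq q (res_q w) = 0`. -/
theorem exists_lam_of_injective [Fact p.Prime]
    (τ : pTor p (Hlev2 h𝒰 ρC hC) →+ ZMod p) (hτ : Injective τ)
    (tq : ∀ q, pTor p (Hlev2 (h𝒰q q) (ρW q) (hW q)) →+ ZMod p) (htq : ∀ q, Injective (tq q))
    (htδ : ∀ x, t (δ x) = 0)
    (hsum : ∀ x : I, ∑ q, inc q (prj q x) = x)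
    (hLG : ∀ q (w : Hlev2 h𝒰 (ρIq q) (hIq q)), p • w = 0 →
      (lvlHom h𝒰 hI hC t ht).mapH2 ((lvlHom h𝒰 (hIq q) hI (inc q) (hinc q)).mapH2 w) = 0 → w = 0)
    (hS2 : ∀ q, Injective (resH2 (hr q) h𝒰 (h𝒰q q) (hIq q) (hW q) (ev q) (hev q))) :
    ∃ lam : ι → ZMod p, (∀ q, lam q ≠ 0) ∧
      ∀ (w : Hlev2 h𝒰 ρE hE), p • w = 0 →
        ∀ u : ∀ q, pTor p (Hlev2 (h𝒰q q) (ρW q) (hW q)),
          (∀ q, (u q : Hlev2 (h𝒰q q) (ρW q) (hW q)) =
            resH2 (hr q) h𝒰 (h𝒰q q) hE (hW q) (theta δ prj ev q)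
              (fun g x => by simp only [theta, LinearMap.comp_apply, hδ, hprj, hev]) w) →
          ∑ q, lam q * tq q (u q) = 0 := by
  have key : ∀ q, ∃ lam : ZMod p, lam ≠ 0 ∧
      ∀ x : pTor p (Hlev2 h𝒰 (ρIq q) (hIq q)),
        τ (pTorMap p (((lvlHom h𝒰 hI hC t ht).mapH2.toAddMonoidHom).comp
          ((lvlHom h𝒰 (hIq q) hI (inc q) (hinc q)).mapH2.toAddMonoidHom)) x) =
        lam * tq q (pTorMap p
          (resH2 (hr q) h𝒰 (h𝒰q q) (hIq q) (hW q) (ev q) (hev q)).toAddMonoidHom x) := fun q =>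
    exists_ne_zero_mul_of_injective' p _ τ _ (tq q)
      (pTorMap_injective_of p _ (fun w hpw hw => hLG q w hpw hw)) hτ
      (pTorMap_injective_of p _ (fun w _ hw => hS2 q (hw.trans (map_zero _).symm))) (htq q)
  choose lam hlam0 hlam using key
  refine ⟨lam, hlam0, fun w hpw u hu => ?_⟩
  refine reciprocity_inv h𝒰 h𝒰q r hr hE hI hC hIq hW δ hδ t ht inc hinc prj hprj ev hev p τ tq lam
    htδ hsum (fun q z hpz a b ha hb => ?_) w hpw u hu
  have h1 := hlam q ⟨z, hpz⟩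
  have ea : a = pTorMap p (((lvlHom h𝒰 hI hC t ht).mapH2.toAddMonoidHom).comp
      ((lvlHom h𝒰 (hIq q) hI (inc q) (hinc q)).mapH2.toAddMonoidHom)) ⟨z, hpz⟩ :=
    Subtype.ext ha
  have eb : b = pTorMap p
      (resH2 (hr q) h𝒰 (h𝒰q q) (hIq q) (hW q) (ev q) (hev q)).toAddMonoidHom ⟨z, hpz⟩ :=
    Subtype.ext hb
  rw [ea, eb]
  exact h1

end Invariants

end Fermat.Agent.TW.Recip.RecipClass94
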