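/-
TW programme, WP3 (3b), file 4: the GLOBAL RECIPROCITY LAW for `G_S`-classes with values in the
`S`-units, for ARBITRARY injective local invariants.

For `p` odd, `p ∈ S` and any family of injective maps
`tq q : H²_lev(Γ_q, ℚ̄_qˣ)[p] →+ ℤ/p` (`q ∈ S`), there are NONZERO scalars `lam q ∈ ℤ/p` with

  `∑_{q ∈ S} lam q * tq q (res_q W) = 0`   for every `W ∈ H²_lev(Γ, levelS S; E_S)[p]`,

where `res_q` is the change-of-group map along `Γ_q → Γ`, `E_S → ℚ̄_qˣ` (`Objects21.locE`).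

Proof: `E_S → I_S → C_S` composes to zero, `I_S = ∏_q I_{S,q}`, the global invariant
`τ : H²(C_S)[p] ↪ ℤ/p` (`InvFund18.exists_inv_of_isFundClass` + `FundLevel2.fundFixed_CS`) and, for
each `q`, the two injective maps `τ ∘ t_* ∘ inc_q*` ((LG), `LocalGlobalInst27.hLG_inclq`) and
`tq q ∘ sh_q` ((S2), `LocS2_29.resH2_injective`) on `H²(Γ, I_{S,q})[p]` differ by a unit `lam q`.
Then `RecipClass94.exists_lam_of_injective`.
-/
import Mathlib
import Fermat.Agent.TW.Recip.RecipClass94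
import Fermat.Agent.PT.PRO.ProdDict10
import Fermat.Agent.PT.PRO.InvFund18
import Fermat.Agent.PT.GLUE.LocS2_29
import Fermat.Agent.PT.GLUE.LocalGlobalInst27
import Fermat.Agent.PT.GLUE.FundLevel2
import Fermat.Agent.PT.GLOB.FundClassExists6
import Fermat.Agent.PT.GLOB.LocalInjMain14

set_option autoImplicit false

namespace Fermat.Agent.TW.Recip.RecipQ94

open Function
open Fermat.Agent.PT Fermat.Agent.PT.PRO Fermat.Agent.PT.GLUE Fermat.Agent.PT.GLUE.Objects21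
open Fermat.Agent.PT.PRO.HyperLevel25 Fermat.Agent.PT.PRO.Resolved4
open Fermat.Agent.PT.PRO.HyperRes25 Fermat.Agent.PT.PRO.PairingRes1
open Fermat.Agent.PT.PRO.LevelEquiv29
open Fermat.Agent.PT.PRO.ProdDict10 Fermat.Agent.PT.GLUE.LocS2_29
open Fermat.Agent.PT.GLUE.LevelTheta21 Fermat.Agent.PT.PRO.InvP4
open Fermat.Agent.TW.Recip.Reciprocity94 Fermat.Agent.TW.Recip.RecipClass94

local notation "Γ" => (AlgebraicClosure ℚ ≃ₐ[ℚ] AlgebraicClosure ℚ)

/-! ## A congruence lemma for `resH2` -/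

section Congr

variable {k G H : Type*} [CommRing k] [Group G] [Group H]
variable {𝒰 : Set (Subgroup G)} {𝒱 : Set (Subgroup H)}
variable {X Y : Type*} [AddCommGroup X] [Module k X] [AddCommGroup Y] [Module k Y]
variable {ρX : Representation k G X} {ρY : Representation k H Y}
variable {r : H →* G} (hr : IsLevelHom r 𝒱 𝒰) (h𝒰 : IsLevelBasis 𝒰) (h𝒱 : IsLevelBasis 𝒱)
  (hX : IsDiscrete 𝒰 ρX) (hY : IsDiscrete 𝒱 ρY)

lemma resH2_congr {φ φ' : X →ₗ[k] Y} (h : φ = φ')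
    (hφ : ∀ g x, φ (ρX (r g) x) = ρY g (φ x)) (hφ' : ∀ g x, φ' (ρX (r g) x) = ρY g (φ' x))
    (w : Hlev2 h𝒰 ρX hX) :
    resH2 hr h𝒰 h𝒱 hX hY φ hφ w = resH2 hr h𝒰 h𝒱 hX hY φ' hφ' w := by
  subst h
  rfl

end Congr

/-! ## The concrete reciprocity law -/

section Concrete

variable (S : Finset Nat.Primes)

/-- Discreteness of `E_S`, `C_S`, `ℚ̄_qˣ` in `HyperLevel25` vocabulary. -/
theorem isDiscrete_ES' : HyperLevel25.IsDiscrete (levelS S).sets (ES S).ρ := isDiscrete_ES S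

theorem isDiscrete_CS' : HyperLevel25.IsDiscrete (levelS S).sets (CS S).ρ := isDiscrete_CS S

theorem isDiscrete_unitsLoc' (q : ℕ) [Fact q.Prime] :
    HyperLevel25.IsDiscrete (levelLoc q).sets (unitsLoc q).ρ := isDiscrete_unitsLoc q

theorem theta_eq_locE (q : ↥S) :
    theta (diag S) (ISproj S) (fun q : ↥S => evq S ((q : Nat.Primes) : ℕ)) q =
      locE S ((q : Nat.Primes) : ℕ) := by
  ext b
  exact SmCoind21.ev_lift _ _ _ (isDiscrete_ES S) (locE S ((q : Nat.Primes) : ℕ))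
    (locE_ρ S ((q : Nat.Primes) : ℕ)) b

theorem sum_inclq_ISproj [DecidableEq ↥S] (x : IS S) :
    ∑ q : ↥S, inclq S q (ISproj S q x) = x := by
  apply (ISequiv S).injective
  funext r
  rw [map_sum, Finset.sum_apply, Finset.sum_eq_single r]
  · rw [LocalGlobalInst27.ISequiv_inclq_same, ISproj_apply]
  · intro q _ hq
    exact LocalGlobalInst27.ISequiv_inclq_ne S q _ r (Ne.symm hq)
  · intro h
    exact absurd (Finset.mem_univ r) h

variable (p : ℕ) [hp : Fact p.Prime]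

/-- The global invariant `τ : H²_lev(Γ, levelS S; C_S)[p] ↪ ℤ/p`. -/
theorem exists_tauCS (hp2 : p ≠ 2) (hpS : (⟨p, hp.out⟩ : Nat.Primes) ∈ S) :
    ∃ τ : pTor p (Hlev2 (basis (levelS S)) (CS S).ρ (isDiscrete_CS' S)) →+ ZMod p,
      Injective τ :=
  InvFund18.exists_inv_of_isFundClass (CS S).ρ (basis (levelS S)) (isDiscrete_CS' S)
    (FundLevel2.fundFixed_CS p hp2 hpS (GLOB.FundClassExists6.fundClassExists p S))

/-- **Global reciprocity for `S`-unit classes, with arbitrary injective local invariants**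
(relational form: `u q` is any element of `H²(Γ_q, ℚ̄_qˣ)[p]` whose value is `res_q W`). -/
theorem exists_lam (hp2 : p ≠ 2) (hpS : (⟨p, hp.out⟩ : Nat.Primes) ∈ S)
    (tq : ∀ q : ↥S, pTor p (Hlev2 (basis (levelLoc ((q : Nat.Primes) : ℕ)))
      (unitsLoc ((q : Nat.Primes) : ℕ)).ρ (isDiscrete_unitsLoc' ((q : Nat.Primes) : ℕ))) →+ ZMod p)
    (htq : ∀ q, Injective (tq q)) :
    ∃ lam : ↥S → ZMod p, (∀ q, lam q ≠ 0) ∧
      ∀ (W : Hlev2 (basis (levelS S)) (ES S).ρ (isDiscrete_ES' S)), p • W = 0 →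
        ∀ u : ∀ q : ↥S, pTor p (Hlev2 (basis (levelLoc ((q : Nat.Primes) : ℕ)))
          (unitsLoc ((q : Nat.Primes) : ℕ)).ρ (isDiscrete_unitsLoc' ((q : Nat.Primes) : ℕ))),
          (∀ q : ↥S, (u q : Hlev2 (basis (levelLoc ((q : Nat.Primes) : ℕ)))
              (unitsLoc ((q : Nat.Primes) : ℕ)).ρ (isDiscrete_unitsLoc' ((q : Nat.Primes) : ℕ))) =
            resH2 (isLevelHom_loc S ((q : Nat.Primes) : ℕ)) (basis (levelS S))
              (basis (levelLoc ((q : Nat.Primes) : ℕ))) (isDiscrete_ES' S)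
              (isDiscrete_unitsLoc' ((q : Nat.Primes) : ℕ)) (locE S ((q : Nat.Primes) : ℕ))
              (locE_ρ S ((q : Nat.Primes) : ℕ)) W) →
          ∑ q : ↥S, lam q * tq q (u q) = 0 := by
  have hpp : p.Prime := hp.out
  have hpS' : ∃ q ∈ S, (q : ℕ) = p := ⟨⟨p, hpp⟩, hpS, rfl⟩
  refine (exists_tauCS S p hp2 hpS).elim fun τ hτ => ?_
  refine (exists_lam_of_injective (basis (levelS S))
    (fun q : ↥S => basis (levelLoc ((q : Nat.Primes) : ℕ)))
    (fun q : ↥S => localGaloisToGlobal ((q : Nat.Primes) : ℕ))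
    (fun q : ↥S => isLevelHom_loc S ((q : Nat.Primes) : ℕ))
    (isDiscrete_ES' S) (isDiscrete_IS' S) (isDiscrete_CS' S) (isDiscrete_ISq' S)
    (fun q : ↥S => isDiscrete_unitsLoc' ((q : Nat.Primes) : ℕ))
    (diag S) (diag_ρ S) (toCS S) (toCS_ρ S) (inclq S) (inclq_ρ S) (ISproj S) (ISproj_ρ S)
    (fun q : ↥S => evq S ((q : Nat.Primes) : ℕ)) (fun q : ↥S => evq_ρ S ((q : Nat.Primes) : ℕ))
    p τ hτ tq htq
    (fun b => (toCS_eq_zero_iff S _).2 ⟨b, rfl⟩) (sum_inclq_ISproj S)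
    (LocalGlobalInst27.hLG_inclq S p hpp hp2 hpS'
      (GLOB.LocalInjMain14.localInjectivity p S) (basis (levelS S)) (isDiscrete_ISq' S)
      (isDiscrete_IS' S) (isDiscrete_CS' S))
    (fun q : ↥S => LocS2_29.resH2_injective S ((q : Nat.Primes) : ℕ))).imp
    fun lam h => ⟨h.1, fun W hW u hu => h.2 W hW u fun q => ?_⟩
  exact (hu q).trans (resH2_congr _ _ _ _ _ (theta_eq_locE S q).symm _ _ W)

/-- The same statement with explicit subtype elements `⟨res_q W, _⟩`. -/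
theorem exists_lam' (hp2 : p ≠ 2) (hpS : (⟨p, hp.out⟩ : Nat.Primes) ∈ S)
    (tq : ∀ q : ↥S, pTor p (Hlev2 (basis (levelLoc ((q : Nat.Primes) : ℕ)))
      (unitsLoc ((q : Nat.Primes) : ℕ)).ρ (isDiscrete_unitsLoc' ((q : Nat.Primes) : ℕ))) →+ ZMod p)
    (htq : ∀ q, Injective (tq q)) :
    ∃ lam : ↥S → ZMod p, (∀ q, lam q ≠ 0) ∧
      ∀ (W : Hlev2 (basis (levelS S)) (ES S).ρ (isDiscrete_ES' S)) (hW : p • W = 0),
        ∑ q : ↥S, lam q * tq q
          ⟨resH2 (isLevelHom_loc S ((q : Nat.Primes) : ℕ)) (basis (levelS S))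
            (basis (levelLoc ((q : Nat.Primes) : ℕ))) (isDiscrete_ES' S)
            (isDiscrete_unitsLoc' ((q : Nat.Primes) : ℕ)) (locE S ((q : Nat.Primes) : ℕ))
            (locE_ρ S ((q : Nat.Primes) : ℕ)) W, nsmul_apply_eq_zero _ p hW⟩ = 0 :=
  (exists_lam S p hp2 hpS tq htq).imp fun _ h =>
    ⟨h.1, fun W hW => h.2 W hW (fun q => ⟨_, nsmul_apply_eq_zero _ p hW⟩) (fun _ => rfl)⟩

end Concrete

end Fermat.Agent.TW.Recip.RecipQ94
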